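import Fermat.Agent.S55.Trans.LocUnits

/-!
# S55 wiring: Hilbert 90 in level form for the local multiplicative module

* `tl_h90_of_finiteIndex`: Poincaré series argument for a group `H` acting on a field `Ω` by ring
  automorphisms: a multiplicative 1-cocycle `H → Ω` which is constant on the right cosets of a
  finite-index subgroup `U`, `U` being the pointwise stabiliser in `H` of a subfield, is a
  coboundary.  No finiteness of the extension, no infinite Galois theory.
* `tl_locUnits_coboundary`: every level-constant 1-cocycle of any subgroup of the local Galois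
  group at `q` with values in `(PadicAlgCl q)ˣ` is a coboundary.
-/

set_option autoImplicit false

open ExtCitation groupCohomology

namespace Fermat.Agent.S55

section Generic

variable {H Ω : Type*} [Group H] [Field Ω] [MulSemiringAction H Ω]

/-- **Hilbert 90, Poincaré series form.** -/
theorem tl_h90_of_finiteIndex (K : Subfield Ω) (U : Subgroup H) [U.FiniteIndex]
    (hU : ∀ s : H, s ∈ U ↔ ∀ z ∈ K, s • z = z)
    (c : H → Ω) (hc0 : ∀ h, c h ≠ 0) (hc : ∀ g h, c (g * h) = c g * g • c h)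
    (hinv : ∀ g s, s ∈ U → c (g * s) = c g) :
    ∃ b : Ω, b ≠ 0 ∧ ∀ h : H, c h * h • b = b := by
  classical
  have : Fintype (H ⧸ U) := Subgroup.fintypeQuotientOfFiniteIndex
  -- the characters `K →* Ω` attached to the cosets
  let χ : H → (K →* Ω) := fun g =>
    ((MulSemiringAction.toRingHom H Ω g).comp K.subtype : K →+* Ω)
  have hχ : ∀ g (z : K), χ g z = g • (z : Ω) := fun g z => rfl
  -- the Poincaré series at `z`, as a function on cosets
  have hF : ∀ (z : K) (g g' : H), (QuotientGroup.mk g : H ⧸ U) = QuotientGroup.mk g' →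
      c g * g • (z : Ω) = c g' * g' • (z : Ω) := by
    intro z g g' h
    have hs : g⁻¹ * g' ∈ U := QuotientGroup.eq.1 h
    have e : g' = g * (g⁻¹ * g') := by group
    rw [e, hinv g _ hs, mul_smul, (hU _).1 hs z z.2]
  let F : K → H ⧸ U → Ω := fun z => Quotient.lift (fun g => c g * g • (z : Ω))
    (fun g g' h => hF z g g' (Quotient.sound h))
  have hFmk : ∀ z g, F z (QuotientGroup.mk g) = c g * g • (z : Ω) := fun z g => rfl
  -- equivariance
  have hequiv : ∀ (z : K) (h : H) (x : H ⧸ U), c h * h • F z x = F z (h • x) := by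
    intro z h x
    induction x using QuotientGroup.induction_on with
    | H g =>
      rw [hFmk]
      have : (h • (QuotientGroup.mk g : H ⧸ U)) = QuotientGroup.mk (h * g) := rfl
      rw [this, hFmk, hc, smul_mul', mul_smul, mul_assoc]
  -- a point where the series does not vanish
  obtain ⟨z, hz⟩ : ∃ z : K, ∑ x : H ⧸ U, F z x ≠ 0 := by
    by_contra hall'
    have hall : ∀ z : K, ∑ x : H ⧸ U, F z x = 0 := fun z =>
      by_contra fun h => hall' ⟨z, h⟩
    have hinj : Function.Injective fun x : H ⧸ U => χ x.out := by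
      intro x y hxy
      have h1 : ∀ z : K, x.out • (z : Ω) = y.out • (z : Ω) := fun z => by
        have := DFunLike.congr_fun hxy z
        simpa [hχ] using this
      have h2 : x.out⁻¹ * y.out ∈ U := by
        rw [hU]
        intro z hzK
        rw [mul_smul, ← h1 ⟨z, hzK⟩, inv_smul_smul]
      have := QuotientGroup.eq.2 h2
      rwa [QuotientGroup.out_eq', QuotientGroup.out_eq'] at this
    have hli : LinearIndependent Ω (fun x : H ⧸ U => (χ x.out : K → Ω)) :=
      LinearIndependent.comp (linearIndependent_monoidHom K Ω) (fun x : H ⧸ U => χ x.out) hinj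
    have hsum : ∑ x : H ⧸ U, c x.out • (χ x.out : K → Ω) = 0 := by
      funext z
      have := hall z
      rw [Finset.sum_apply]
      simp only [Pi.smul_apply, smul_eq_mul, Pi.zero_apply]
      rw [← this]
      refine Finset.sum_congr rfl fun x _ => ?_
      conv_rhs => rw [← QuotientGroup.out_eq' x]
      rw [hFmk, hχ]
    have := (Fintype.linearIndependent_iff.1 hli) (fun x => c x.out) hsum
    obtain ⟨x⟩ : Nonempty (H ⧸ U) := ⟨QuotientGroup.mk 1⟩
    exact hc0 _ (this x)
  refine ⟨∑ x : H ⧸ U, F z x, hz, fun h => ?_⟩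
  rw [Finset.smul_sum, Finset.mul_sum]
  simp only [hequiv]
  exact Fintype.sum_equiv (MulAction.toPerm h) _ _ fun x => rfl

end Generic

section Padic

local notation "Qbar" => AlgebraicClosure ℚ

variable (p : ℕ) [Fact p.Prime]

/-- A local automorphism maps into `Fix F` iff it fixes the image of `F` in `PadicAlgCl p`. -/
theorem tl_localGaloisToGlobal_mem_fixingSubgroup_iff (F : IntermediateField ℚ Qbar)
    (σ : PadicAlgCl p ≃ₐ[ℚ_[p]] PadicAlgCl p) :
    localGaloisToGlobal p σ ∈ F.fixingSubgroup ↔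
      ∀ y ∈ F, σ (padicEmbedding p y) = padicEmbedding p y := by
  rw [IntermediateField.mem_fixingSubgroup_iff]
  refine forall₂_congr fun y _ => ?_
  rw [← padicEmbedding_localGaloisToGlobal]
  exact ⟨fun h => by rw [h], fun h => (padicEmbedding p).toRingHom.injective h⟩

/-- Hilbert 90 for any subgroup of `Gal(ℚ̄_p/ℚ_p)` and cocycles constant modulo the preimage of
`Fix F`, `F` a number field. -/
theorem tl_h90_padic (H : Subgroup (PadicAlgCl p ≃ₐ[ℚ_[p]] PadicAlgCl p))
    (F : IntermediateField ℚ Qbar) [FiniteDimensional ℚ F]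
    (c : H → (PadicAlgCl p)ˣ)
    (hc : ∀ g h : H, ((c (g * h) : (PadicAlgCl p)ˣ) : PadicAlgCl p)
      = (c g : PadicAlgCl p) * (g : PadicAlgCl p ≃ₐ[ℚ_[p]] PadicAlgCl p) (c h : PadicAlgCl p))
    (hinv : ∀ g s : H, localGaloisToGlobal p (s : PadicAlgCl p ≃ₐ[ℚ_[p]] PadicAlgCl p)
      ∈ F.fixingSubgroup → c (g * s) = c g) :
    ∃ b : (PadicAlgCl p)ˣ, ∀ h : H,
      (c h : PadicAlgCl p) * (h : PadicAlgCl p ≃ₐ[ℚ_[p]] PadicAlgCl p) (b : PadicAlgCl p)
        = (b : PadicAlgCl p) := by
  have hfi : (F.fixingSubgroup.comap (localGaloisToGlobal p)).FiniteIndex := by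
    have := tl_finiteIndex_fixingSubgroup F
    refine ⟨?_⟩
    rw [Subgroup.index_comap]
    exact (Subgroup.instFiniteIndex_subgroupOf F.fixingSubgroup
      (localGaloisToGlobal p).range).index_ne_zero
  have hfi' : ((F.fixingSubgroup.comap (localGaloisToGlobal p)).subgroupOf H).FiniteIndex :=
    inferInstance
  obtain ⟨b, hb0, hb⟩ := tl_h90_of_finiteIndex (H := H) (Ω := PadicAlgCl p)
    (F.toSubfield.map (padicEmbedding p).toRingHom)
    ((F.fixingSubgroup.comap (localGaloisToGlobal p)).subgroupOf H)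
    (fun s => by
      rw [Subgroup.mem_subgroupOf, Subgroup.mem_comap,
        tl_localGaloisToGlobal_mem_fixingSubgroup_iff]
      constructor
      · rintro h z ⟨y, hy, rfl⟩
        exact h y hy
      · intro h y hy
        exact h _ ⟨y, hy, rfl⟩)
    (fun h => (c h : PadicAlgCl p)) (fun h => Units.ne_zero _) hc
    (fun g s hs => by
      rw [Subgroup.mem_subgroupOf, Subgroup.mem_comap] at hs
      rw [hinv g s hs])
  exact ⟨Units.mk0 b hb0, hb⟩

end Padic

section LocUnits

variable (q : Nat.Primes) (H : Subgroup (primeLocalGaloisGroup q))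

/-- **Hilbert 90 for the local multiplicative module**: a 1-cocycle of a subgroup `H` of the local
Galois group at `q`, constant modulo the preimage of `Fix F` (`F` a number field), is a
coboundary. -/
theorem tl_locUnits_coboundary_of_fixing (c : H → tl_locUnits q) (hc : IsCocycle₁ c)
    (F : IntermediateField ℚ (AlgebraicClosure ℚ)) [FiniteDimensional ℚ F]
    (hinv : ∀ g s : H, primeLocalToGlobal q (s : primeLocalGaloisGroup q) ∈ F.fixingSubgroup →
      c (g * s) = c g) :
    ∃ x : tl_locUnits q, ∀ h : H, c h = h • x - x := by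
  have : Fact (q : ℕ).Prime := ⟨q.2⟩
  have key := tl_h90_padic (q : ℕ)
    (show Subgroup (PadicAlgCl (q : ℕ) ≃ₐ[ℚ_[(q : ℕ)]] PadicAlgCl (q : ℕ)) from H) F
    (fun h => tl_locUnits.val q (c h)) ?_ ?_
  · obtain ⟨b, hb⟩ := key
    refine ⟨tl_locUnits.of q b⁻¹, fun h => ?_⟩
    have h1 := hb h
    apply Additive.toMul.injective
    apply Units.ext
    have h4 : ((Additive.toMul (h • tl_locUnits.of q b⁻¹ - tl_locUnits.of q b⁻¹) :
        (PadicAlgCl (q : ℕ))ˣ) : PadicAlgCl (q : ℕ))
        = (show PadicAlgCl (q : ℕ) ≃ₐ[ℚ_[(q : ℕ)]] PadicAlgCl (q : ℕ) from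
            (h : primeLocalGaloisGroup q)) ((b⁻¹ : (PadicAlgCl (q : ℕ))ˣ) : PadicAlgCl (q : ℕ))
          / ((b⁻¹ : (PadicAlgCl (q : ℕ))ˣ) : PadicAlgCl (q : ℕ)) :=
      Units.val_div_eq_div_val _ _
    rw [h4, Units.val_inv_eq_inv_val, map_inv₀, div_inv_eq_mul]
    have hne : (show PadicAlgCl (q : ℕ) ≃ₐ[ℚ_[(q : ℕ)]] PadicAlgCl (q : ℕ) from
        (h : primeLocalGaloisGroup q)) (b : PadicAlgCl (q : ℕ)) ≠ 0 := by
      rw [Ne, map_eq_zero_iff _ (AlgEquiv.injective _)]
      exact Units.ne_zero b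
    rw [eq_comm, inv_mul_eq_iff_eq_mul₀ hne, mul_comm]
    exact h1.symm
  · intro (g : H) (h : H)
    have h2 := congrArg (fun x => ((tl_locUnits.val q x : (PadicAlgCl (q : ℕ))ˣ) :
      PadicAlgCl (q : ℕ))) (hc g h)
    refine h2.trans ?_
    have h3 : (tl_locUnits.val q (g • c h + c g) : (PadicAlgCl (q : ℕ))ˣ)
        = tl_locUnits.val q (g • c h) * tl_locUnits.val q (c g) := rfl
    rw [h3, Units.val_mul, mul_comm]
    rfl
  · intro (g : H) (s : H) hs
    exact congrArg (tl_locUnits.val q) (hinv g s hs)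

/-- Level-constant 1-cocycles of any subgroup of the local Galois group with values in the local
multiplicative module are coboundaries (level system restricted from `tl_levelsLoc q`). -/
theorem tl_locUnits_coboundary (c : H → tl_locUnits q) (hc : IsCocycle₁ c)
    (hlc : ((tl_levelsLoc q).comap H.subtype).IsLC1 c) :
    ∃ x : tl_locUnits q, ∀ h : H, c h = h • x - x := by
  obtain ⟨_, ⟨_, ⟨_, ⟨F, hF, rfl⟩, rfl⟩, rfl⟩, hinv⟩ := hlc
  exact tl_locUnits_coboundary_of_fixing q H c hc F fun g s hs => hinv g s hs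

/-- The same with the level system spelled `tl_levelsVia` of the composite `H → G_q → G_ℚ`. -/
theorem tl_locUnits_coboundary' (c : H → tl_locUnits q) (hc : IsCocycle₁ c)
    (hlc : (tl_levelsVia ((primeLocalToGlobal q).comp H.subtype)).IsLC1 c) :
    ∃ x : tl_locUnits q, ∀ h : H, c h = h • x - x := by
  obtain ⟨_, ⟨_, ⟨F, hF, rfl⟩, rfl⟩, hinv⟩ := hlc
  exact tl_locUnits_coboundary_of_fixing q H c hc F fun g s hs => hinv g s hs

/-- `H¹(H, (PadicAlgCl q)ˣ) = 0` in level cohomology, for every subgroup `H` of the local Galois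
group. -/
theorem tl_lvH1_locUnits_subgroup_eq_zero
    (z : lvH1 ((tl_levelsLoc q).comap H.subtype) (tl_locUnits q)) : z = 0 := by
  obtain ⟨c, rfl⟩ := lvH1mk_surjective z
  rw [lvH1mk_eq_zero_iff]
  obtain ⟨x, hx⟩ := tl_locUnits_coboundary q H c.1 c.2.1 c.2.2
  exact ⟨x, funext fun h => (hx h).symm⟩

theorem tl_lvH1_locUnits_subgroup_eq_zero'
    (z : lvH1 (tl_levelsVia ((primeLocalToGlobal q).comp H.subtype)) (tl_locUnits q)) : z = 0 := by
  obtain ⟨c, rfl⟩ := lvH1mk_surjective z
  rw [lvH1mk_eq_zero_iff]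
  obtain ⟨x, hx⟩ := tl_locUnits_coboundary' q H c.1 c.2.1 c.2.2
  exact ⟨x, funext fun h => (hx h).symm⟩

/-- `H¹(G_q, (PadicAlgCl q)ˣ) = 0` in level cohomology. -/
theorem tl_lvH1_locUnits_eq_zero (z : lvH1 (tl_levelsLoc q) (tl_locUnits q)) : z = 0 := by
  obtain ⟨c, rfl⟩ := lvH1mk_surjective z
  rw [lvH1mk_eq_zero_iff]
  obtain ⟨_, ⟨_, ⟨F, hF, rfl⟩, rfl⟩, hinv⟩ := c.2.2
  obtain ⟨x, hx⟩ := tl_locUnits_coboundary_of_fixing q ⊤ (fun h => c.1 h)
    (fun g h => c.2.1 g h) F (fun g s hs => hinv g s hs)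
  exact ⟨x, funext fun h => (hx ⟨h, Subgroup.mem_top h⟩).symm⟩

end LocUnits

end Fermat.Agent.S55
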