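import Mathlib
import Fermat.Prelude.Def_GaloisRep_CompletionBridge

/-!
# S55 wiring: Krasner's lemma for the frozen local level system

Every element of `PadicAlgCl q` lies in `ℚ_q(y)` for some `y` in the image of `ℚ̄`; hence it is
fixed by the preimage in `Gal(ℚ̄_q/ℚ_q)` of `Fix F` for a number field `F`.  This is the smoothness
of `PadicAlgCl q` (and of its unit group) for the level system pulled back from global fields.
-/

set_option autoImplicit false

open Polynomial IntermediateField

namespace Fermat.Agent.S55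

variable (q : ℕ) [Fact q.Prime]

local notation "Qbar" => AlgebraicClosure ℚ

/-- A finite set of positive reals has a positive lower bound. -/
theorem tl_exists_pos_le_of_finset (T : Finset ℝ) (hT : ∀ t ∈ T, 0 < t) :
    ∃ δ : ℝ, 0 < δ ∧ ∀ t ∈ T, δ ≤ t := by
  classical
  refine ⟨(insert 1 T).min' (Finset.insert_nonempty 1 T), ?_, fun t ht => ?_⟩
  · rw [Finset.lt_min'_iff]
    intro t ht
    rcases Finset.mem_insert.1 ht with rfl | ht
    · exact one_pos
    · exact hT t ht
  · exact Finset.min'_le _ t (Finset.mem_insert_of_mem ht)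

/-- Roots in `PadicAlgCl q` of a rational polynomial come from `ℚ̄`. -/
theorem tl_exists_padicEmbedding_eq_of_root (g : ℚ[X]) (hg : g ≠ 0) (b : PadicAlgCl q)
    (hb : aeval b g = 0) : ∃ y₀ : Qbar, padicEmbedding q y₀ = b := by
  have hsp : (g.map (algebraMap ℚ Qbar)).Splits := IsAlgClosed.splits _
  have hmap : (g.map (algebraMap ℚ Qbar)).map (padicEmbedding q).toRingHom =
      g.map (algebraMap ℚ (PadicAlgCl q)) := by
    rw [Polynomial.map_map]
    congr 1
    exact (padicEmbedding q).comp_algebraMap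
  have hroots := Polynomial.Splits.roots_map hsp (padicEmbedding q).toRingHom
  have hbmem : b ∈ (g.map (algebraMap ℚ (PadicAlgCl q))).roots := by
    rw [Polynomial.mem_roots (Polynomial.map_ne_zero hg), Polynomial.IsRoot, Polynomial.eval_map,
      ← Polynomial.aeval_def]
    exact hb
  rw [← hmap, hroots, Multiset.mem_map] at hbmem
  obtain ⟨y₀, -, hy⟩ := hbmem
  exact ⟨y₀, hy⟩

/-- **Krasner**: every element of `PadicAlgCl q` lies in `ℚ_q(y)` with `y` in the image of `ℚ̄`. -/
theorem tl_exists_adjoin_padicEmbedding (x : PadicAlgCl q) :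
    ∃ y₀ : Qbar, x ∈ ℚ_[q]⟮padicEmbedding q y₀⟯ := by
  classical
  have hxint : IsIntegral ℚ_[q] x := Algebra.IsIntegral.isIntegral x
  set f := minpoly ℚ_[q] x with hf
  have hfm : f.Monic := minpoly.monic hxint
  have hfsep : f.Separable := (minpoly.irreducible hxint).separable
  have hn : f.natDegree ≠ 0 := (minpoly.natDegree_pos hxint).ne'
  -- the distances to the other conjugates
  let R : Finset (PadicAlgCl q) := (f.aroots (PadicAlgCl q)).toFinset.erase x
  obtain ⟨δ, hδ, hδle⟩ := tl_exists_pos_le_of_finset (R.image fun x' => ‖x - x'‖) (by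
    intro t ht
    obtain ⟨x', hx', rfl⟩ := Finset.mem_image.1 ht
    have hne : x' ≠ x := (Finset.mem_erase.1 hx').1
    exact norm_pos_iff.2 (sub_ne_zero.2 (Ne.symm hne)))
  -- choose `ε`
  set m : ℝ := max ‖x‖ 1 with hm
  have hmpos : 0 < m := lt_of_lt_of_le one_pos (le_max_right _ _)
  set c : ℝ := δ / (2 * m) with hc
  have hcpos : 0 < c := div_pos hδ (by positivity)
  set ε : ℝ := c ^ f.natDegree / (f.natDegree + 1) with hε
  have hεpos : 0 < ε := div_pos (pow_pos hcpos _) (by positivity)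
  have hbound : ((f.natDegree + 1) * ε) ^ (f.natDegree : ℝ)⁻¹ * m < δ := by
    have h1 : ((f.natDegree : ℝ) + 1) * ε = c ^ f.natDegree := by
      rw [hε]; field_simp
    rw [h1, Real.pow_rpow_inv_natCast hcpos.le hn, hc]
    have : δ / (2 * m) * m = δ / 2 := by field_simp
    rw [this]
    linarith
  -- approximate `f` by a rational monic polynomial
  obtain ⟨g, hgm, hdeg, hcoeff⟩ :=
    exists_monic_and_natDegree_eq_and_norm_map_algebraMap_coeff_sub_lt
      (K := ℚ) (L := ℚ_[q]) (Padic.denseRange_ratCast q) hfm hεpos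
  -- a root of `g` close to `x`
  obtain ⟨b, hbroot, hbclose⟩ := exists_aroots_norm_sub_lt_of_norm_coeff_sub_lt
    (K := ℚ_[q]) (L := PadicAlgCl q) (f := f) (g := g.map (algebraMap ℚ ℚ_[q])) hεpos
    (minpoly.aeval ℚ_[q] x) hfm (hgm.map _) (by rw [hgm.natDegree_map]; exact hdeg.symm)
    hcoeff (IsAlgClosed.splits _)
  have hbδ : ‖x - b‖ < δ := lt_trans hbclose hbound
  -- `b` comes from `ℚ̄`
  have hb0 : aeval b g = 0 := by
    have := (Polynomial.mem_aroots.1 hbroot).2
    rwa [Polynomial.aeval_map_algebraMap] at this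
  obtain ⟨y₀, hy₀⟩ := tl_exists_padicEmbedding_eq_of_root q g hgm.ne_zero b hb0
  refine ⟨y₀, ?_⟩
  rw [hy₀]
  -- Krasner's lemma
  refine IsKrasner.krasner (K := ℚ_[q]) (L := PadicAlgCl q) hfsep (IsAlgClosed.splits _)
    (Algebra.IsIntegral.isIntegral b) (fun x' hconj hne => ?_)
  have hx'mem : x' ∈ R := by
    refine Finset.mem_erase.2 ⟨Ne.symm hne, Multiset.mem_toFinset.2 ?_⟩
    exact (isConjRoot_iff_mem_minpoly_aroots hxint).1 hconj
  exact lt_of_lt_of_le hbδ (hδle _ (Finset.mem_image_of_mem _ hx'mem))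

/-- **Smoothness of `PadicAlgCl q` for the level system pulled back from global fields.** -/
theorem tl_exists_level_fixing (x : PadicAlgCl q) :
    ∃ F : IntermediateField ℚ Qbar, FiniteDimensional ℚ F ∧
      ∀ σ : PadicAlgCl q ≃ₐ[ℚ_[q]] PadicAlgCl q,
        localGaloisToGlobal q σ ∈ F.fixingSubgroup → σ x = x := by
  obtain ⟨y₀, hy₀⟩ := tl_exists_adjoin_padicEmbedding q x
  have : Algebra.IsAlgebraic ℚ Qbar := AlgebraicClosure.isAlgebraic ℚ
  refine ⟨ℚ⟮y₀⟯, IntermediateField.adjoin.finiteDimensional (Algebra.IsIntegral.isIntegral y₀),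
    fun σ hσ => ?_⟩
  have hfix : localGaloisToGlobal q σ y₀ = y₀ :=
    (IntermediateField.mem_fixingSubgroup_iff _ _).1 hσ y₀ (IntermediateField.mem_adjoin_simple_self ℚ y₀)
  have hσy : σ (padicEmbedding q y₀) = padicEmbedding q y₀ := by
    rw [← padicEmbedding_localGaloisToGlobal, hfix]
  -- `σ` fixes `ℚ_q(y)` pointwise
  have hmem : x ∈ IntermediateField.fixedField (Subgroup.zpowers σ) := by
    have hle : ℚ_[q]⟮padicEmbedding q y₀⟯ ≤ IntermediateField.fixedField (Subgroup.zpowers σ) := by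
      rw [IntermediateField.adjoin_simple_le_iff]
      rintro ⟨τ, hτ⟩
      obtain ⟨k, rfl⟩ := Subgroup.mem_zpowers_iff.1 hτ
      show (σ ^ k) (padicEmbedding q y₀) = padicEmbedding q y₀
      have hstab : σ ∈ MulAction.stabilizer (PadicAlgCl q ≃ₐ[ℚ_[q]] PadicAlgCl q)
          (padicEmbedding q y₀) := hσy
      exact (Subgroup.zpow_mem _ hstab k : σ ^ k ∈ MulAction.stabilizer _ _)
    exact hle hy₀
  exact hmem ⟨σ, Subgroup.mem_zpowers σ⟩

end Fermat.Agent.S55
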