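import Fermat.Agent.S55.Trans.Levels
import Fermat.Agent.S55.Trans.Krasner

/-!
# S55 wiring: the local multiplicative module `(PadicAlgCl q)ˣ` is smooth

`tl_locUnits q := Additive (PadicAlgCl q)ˣ` with the action of the local Galois group
`primeLocalGaloisGroup q`; by Krasner it is a smooth module for `tl_levelsLoc q`, and it is
divisible (the field is algebraically closed).
-/

set_option autoImplicit false

open ExtCitation

namespace Fermat.Agent.S55

variable (q : Nat.Primes)

/-- The local multiplicative module, written additively. -/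
def tl_locUnits : Type :=
  letI : Fact (q : ℕ).Prime := ⟨q.2⟩
  Additive (PadicAlgCl (q : ℕ))ˣ

noncomputable instance tl_locUnits.instAddCommGroup : AddCommGroup (tl_locUnits q) :=
  letI : Fact (q : ℕ).Prime := ⟨q.2⟩
  inferInstanceAs (AddCommGroup (Additive (PadicAlgCl (q : ℕ))ˣ))

/-- A multiplicative distributive action on `M` gives a distributive action on `Additive M`. -/
@[reducible] def tl_additiveDistribMulAction (G M : Type*) [Monoid G] [CommGroup M]
    [MulDistribMulAction G M] : DistribMulAction G (Additive M) where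
  smul g a := Additive.ofMul (g • Additive.toMul a)
  one_smul a := by show Additive.ofMul ((1 : G) • Additive.toMul a) = a; rw [one_smul]; rfl
  mul_smul g h a := by
    show Additive.ofMul ((g * h) • Additive.toMul a) =
      Additive.ofMul (g • Additive.toMul (Additive.ofMul (h • Additive.toMul a)))
    rw [mul_smul]; rfl
  smul_zero g := by
    show Additive.ofMul (g • (1 : M)) = 0
    rw [smul_one]; rfl
  smul_add g a b := by
    show Additive.ofMul (g • (Additive.toMul a * Additive.toMul b)) = _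
    rw [smul_mul']; rfl

noncomputable instance tl_locUnits.instDistribMulAction :
    DistribMulAction (primeLocalGaloisGroup q) (tl_locUnits q) :=
  letI : Fact (q : ℕ).Prime := ⟨q.2⟩
  tl_additiveDistribMulAction (PadicAlgCl (q : ℕ) ≃ₐ[ℚ_[(q : ℕ)]] PadicAlgCl (q : ℕ))
    (PadicAlgCl (q : ℕ))ˣ

/-- The unit `u` as an element of the additive module. -/
def tl_locUnits.of : letI : Fact (q : ℕ).Prime := ⟨q.2⟩
    (PadicAlgCl (q : ℕ))ˣ → tl_locUnits q :=
  letI : Fact (q : ℕ).Prime := ⟨q.2⟩
  fun u => Additive.ofMul u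

/-- The underlying unit of an element of the additive module. -/
def tl_locUnits.val : letI : Fact (q : ℕ).Prime := ⟨q.2⟩
    tl_locUnits q → (PadicAlgCl (q : ℕ))ˣ :=
  letI : Fact (q : ℕ).Prime := ⟨q.2⟩
  fun x => Additive.toMul x

theorem tl_locUnits.val_smul (σ : primeLocalGaloisGroup q) (x : tl_locUnits q) :
    letI : Fact (q : ℕ).Prime := ⟨q.2⟩
    ((tl_locUnits.val q (σ • x) : (PadicAlgCl (q : ℕ))ˣ) : PadicAlgCl (q : ℕ)) =
      (show PadicAlgCl (q : ℕ) ≃ₐ[ℚ_[(q : ℕ)]] PadicAlgCl (q : ℕ) from σ)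
        ((tl_locUnits.val q x : (PadicAlgCl (q : ℕ))ˣ) : PadicAlgCl (q : ℕ)) := rfl

/-- **The local multiplicative module is smooth for the frozen local level system.** -/
theorem tl_isSmooth_locUnits : (tl_levelsLoc q).IsSmooth (tl_locUnits q) := by
  have : Fact (q : ℕ).Prime := ⟨q.2⟩
  intro x
  obtain ⟨F, hF, h⟩ := tl_exists_level_fixing (q : ℕ)
    ((tl_locUnits.val q x : (PadicAlgCl (q : ℕ))ˣ) : PadicAlgCl (q : ℕ))
  refine ⟨F.fixingSubgroup.comap (primeLocalToGlobal q), ⟨_, ⟨F, hF, rfl⟩, rfl⟩, fun σ hσ => ?_⟩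
  have h1 := h σ hσ
  apply Additive.toMul.injective
  apply Units.ext
  exact h1

/-- The local multiplicative module is divisible. -/
theorem tl_locUnits_divisible (n : ℕ) (hn : n ≠ 0) (x : tl_locUnits q) :
    ∃ y : tl_locUnits q, n • y = x := by
  have : Fact (q : ℕ).Prime := ⟨q.2⟩
  obtain ⟨z, hz⟩ := IsAlgClosed.exists_pow_nat_eq
    ((tl_locUnits.val q x : (PadicAlgCl (q : ℕ))ˣ) : PadicAlgCl (q : ℕ)) (Nat.pos_of_ne_zero hn)
  have hz0 : z ≠ 0 := by
    rintro rfl
    rw [zero_pow hn] at hz
    exact (Units.ne_zero _) hz.symm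
  refine ⟨tl_locUnits.of q (Units.mk0 z hz0), ?_⟩
  apply Additive.toMul.injective
  apply Units.ext
  show ((Units.mk0 z hz0) ^ n : (PadicAlgCl (q : ℕ))ˣ).val = _
  rw [Units.val_pow_eq_pow_val, Units.val_mk0, hz]
  rfl

end Fermat.Agent.S55
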