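import Fermat.Agent.S55.Level.Cohomology
import Fermat.Agent.S55.LevelFamily

/-!
# S55 wiring (T2/T3, part 1): the level systems of S55 and the module carrier

* `tl_Act M`: the additive group of `M : Rep k G` with the `DistribMulAction` through `M.ρ`
  (the carrier on which the level cohomology `lvH1/lvH2` of block [F] is evaluated);
* `tl_levelsS S`: levels `Fix F`, `F/ℚ` finite unramified outside `S`;
* `tl_levelsAll`: levels `Fix F`, `F/ℚ` finite;
* `tl_levelsLoc q`: the pull-back of `tl_levelsAll` to `Gal(ℚ̄_q/ℚ_q)`;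
* the frozen predicates `IsLevelConstantS₁/₂`, `IsLevelConstant₁/₂` are the `IsLC1/IsLC2` of these.
-/

set_option autoImplicit false

open groupCohomology ExtCitation

namespace Fermat.Agent.S55

local notation "GQ" => (AlgebraicClosure ℚ ≃ₐ[ℚ] AlgebraicClosure ℚ)

section Act

universe w u v

variable {k : Type u} {G : Type v} [CommRing k] [Group G]

/-- The underlying additive group of a representation, as a type synonym carrying the action. -/
def tl_Act (M : Rep.{w} k G) : Type w := M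

variable (M : Rep.{w} k G)

instance tl_Act.instAddCommGroup : AddCommGroup (tl_Act M) := inferInstanceAs (AddCommGroup M)

instance tl_Act.instModule : Module k (tl_Act M) := inferInstanceAs (Module k M)

instance tl_Act.instDistribMulAction : DistribMulAction G (tl_Act M) where
  smul g m := M.ρ g m
  one_smul m := by show M.ρ 1 m = m; rw [map_one]; rfl
  mul_smul g h m := by show M.ρ (g * h) m = M.ρ g (M.ρ h m); rw [map_mul]; rfl
  smul_zero g := map_zero (M.ρ g)
  smul_add g m m' := map_add (M.ρ g) m m'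

/-- The identity `M → tl_Act M`. -/
def tl_toAct : M →+ tl_Act M := AddMonoidHom.id M

/-- The identity `tl_Act M → M`. -/
def tl_ofAct : tl_Act M →+ M := AddMonoidHom.id M

theorem tl_Act.smul_def (g : G) (m : tl_Act M) : g • m = M.ρ g m := rfl

end Act

section Levels

/-- Levels `Fix F`, `F/ℚ` finite and unramified outside `S`. -/
noncomputable def tl_levelsS (S : Finset Nat.Primes) : LevelSys GQ where
  levels := {U | ∃ F : IntermediateField ℚ (AlgebraicClosure ℚ),
    F.IsUnramifiedOutside S ∧ U = F.fixingSubgroup}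
  nonempty := ⟨_, ⊥, IntermediateField.isUnramifiedOutside_bot S, rfl⟩
  directed := by
    rintro _ ⟨F, hF, rfl⟩ _ ⟨F', hF', rfl⟩
    exact ⟨_, ⟨F ⊔ F', hF.sup hF', rfl⟩, by rw [IntermediateField.fixingSubgroup_sup]⟩
  exists_normal := by
    rintro _ ⟨F, hF, rfl⟩
    obtain ⟨L, -, hL, -, hn, hle⟩ := tl_exists_galois_level F hF
    exact ⟨_, ⟨L, hL, rfl⟩, hle, hn⟩
  finiteIndex := by
    rintro _ ⟨F, hF, rfl⟩
    have := hF.1
    exact tl_finiteIndex_fixingSubgroup F

theorem tl_mem_levelsS {S : Finset Nat.Primes} {U : Subgroup GQ} :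
    U ∈ (tl_levelsS S).levels ↔ ∃ F : IntermediateField ℚ (AlgebraicClosure ℚ),
      F.IsUnramifiedOutside S ∧ U = F.fixingSubgroup := Iff.rfl

/-- Levels `Fix F`, `F/ℚ` finite. -/
noncomputable def tl_levelsAll : LevelSys GQ where
  levels := {U | ∃ F : IntermediateField ℚ (AlgebraicClosure ℚ),
    FiniteDimensional ℚ F ∧ U = F.fixingSubgroup}
  nonempty := ⟨_, ⊥, inferInstance, rfl⟩
  directed := by
    rintro _ ⟨F, hF, rfl⟩ _ ⟨F', hF', rfl⟩
    exact ⟨_, ⟨F ⊔ F', IntermediateField.finiteDimensional_sup F F', rfl⟩,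
      by rw [IntermediateField.fixingSubgroup_sup]⟩
  exists_normal := by
    rintro _ ⟨F, hF, rfl⟩
    have hnQ : Normal ℚ (AlgebraicClosure ℚ) :=
      @IsAlgClosure.normal ℚ (AlgebraicClosure ℚ) _ _ _
        ⟨inferInstance, AlgebraicClosure.isAlgebraic ℚ⟩
    have hnorm : Normal ℚ (IntermediateField.normalClosure ℚ F (AlgebraicClosure ℚ)) :=
      normalClosure.normal ℚ F (AlgebraicClosure ℚ)
    exact ⟨_, ⟨IntermediateField.normalClosure ℚ F (AlgebraicClosure ℚ),
      normalClosure.is_finiteDimensional ℚ F (AlgebraicClosure ℚ), rfl⟩,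
      IntermediateField.fixingSubgroup_antitone (IntermediateField.le_normalClosure F),
      tl_normal_fixingSubgroup _⟩
  finiteIndex := by
    rintro _ ⟨F, hF, rfl⟩
    exact tl_finiteIndex_fixingSubgroup F

theorem tl_mem_levelsAll {U : Subgroup GQ} :
    U ∈ tl_levelsAll.levels ↔ ∃ F : IntermediateField ℚ (AlgebraicClosure ℚ),
      FiniteDimensional ℚ F ∧ U = F.fixingSubgroup := Iff.rfl

/-- The level system on a group mapping to `Gal(ℚ̄/ℚ)` pulled back from all finite levels. -/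
noncomputable def tl_levelsVia {H : Type*} [Group H] (r : H →* GQ) : LevelSys H := tl_levelsAll.comap r

/-- The level system of the local Galois group at `q`. -/
noncomputable def tl_levelsLoc (q : Nat.Primes) : LevelSys (primeLocalGaloisGroup q) :=
  tl_levelsVia (primeLocalToGlobal q)

theorem tl_levelsS_le_levelsAll {S : Finset Nat.Primes} {U : Subgroup GQ}
    (h : U ∈ (tl_levelsS S).levels) : U ∈ tl_levelsAll.levels := by
  obtain ⟨F, hF, rfl⟩ := h
  exact ⟨F, hF.1, rfl⟩

end Levels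

section Predicates

variable (S : Finset Nat.Primes)

theorem tl_isLevelConstantS₁_iff {X : Type*} (f : GQ → X) :
    IsLevelConstantS₁ S f ↔ (tl_levelsS S).IsLC1 f := by
  constructor
  · rintro ⟨F, hF, h⟩
    exact ⟨_, ⟨F, hF, rfl⟩, fun g s hs => h g s hs⟩
  · rintro ⟨_, ⟨F, hF, rfl⟩, h⟩
    exact ⟨F, hF, fun g s hs => h g s hs⟩

theorem tl_isLevelConstantS₂_iff {X : Type*} (f : GQ × GQ → X) :
    IsLevelConstantS₂ S f ↔ (tl_levelsS S).IsLC2 f := by
  constructor
  · rintro ⟨F, hF, h⟩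
    exact ⟨_, ⟨F, hF, rfl⟩, fun g g' s hs s' hs' => h g g' s s' hs hs'⟩
  · rintro ⟨_, ⟨F, hF, rfl⟩, h⟩
    exact ⟨F, hF, fun g g' s s' hs hs' => h g g' s hs s' hs'⟩

variable {H : Type} [Group H] (r : H →* GQ)

theorem tl_isLevelConstant₁_iff {X : Type*} (f : H → X) :
    IsLevelConstant₁ r f ↔ (tl_levelsVia r).IsLC1 f := by
  constructor
  · rintro ⟨F, hF, h⟩
    exact ⟨_, ⟨_, ⟨F, hF, rfl⟩, rfl⟩, fun g s hs => h g s hs⟩
  · rintro ⟨_, ⟨_, ⟨F, hF, rfl⟩, rfl⟩, h⟩
    exact ⟨F, hF, fun g s hs => h g s hs⟩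

theorem tl_isLevelConstant₂_iff {X : Type*} (f : H × H → X) :
    IsLevelConstant₂ r f ↔ (tl_levelsVia r).IsLC2 f := by
  constructor
  · rintro ⟨F, hF, h⟩
    exact ⟨_, ⟨_, ⟨F, hF, rfl⟩, rfl⟩, fun g g' s hs s' hs' => h g g' s s' hs hs'⟩
  · rintro ⟨_, ⟨_, ⟨F, hF, rfl⟩, rfl⟩, h⟩
    exact ⟨F, hF, fun g g' s s' hs hs' => h g g' s hs s' hs'⟩

end Predicates

end Fermat.Agent.S55
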