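import Fermat.Agent.S55.Trans.H2Bridge

/-!
# S55 wiring (T2): the frozen `continuousH1S` and `sha₁` in level cohomology

* `tl_H1S_hom S A : lvH1 (tl_levelsS S) (tl_Act A) →+ H1 A` is injective with range
  `continuousH1S S A`;
* the frozen localisation `locRes` on such classes vanishes iff the level localisation does;
* `sha₁ S A ≃+ tl_lvSha1 S A`.
-/

set_option autoImplicit false

open groupCohomology ExtCitation CategoryTheory

namespace Fermat.Agent.S55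

local notation "GQ" => (AlgebraicClosure ℚ ≃ₐ[ℚ] AlgebraicClosure ℚ)

section General

variable {k : Type} [CommRing k] {G : Type} [Group G] (L : LevelSys G) (A : Rep.{0} k G)

theorem tl_mem_cocycles₁_iff (f : G → A) :
    f ∈ cocycles₁ A ↔ @IsCocycle₁ G (tl_Act A) _ _ _ f := by
  rw [mem_cocycles₁_iff]
  exact Iff.rfl

/-- A level-constant cocycle as a Mathlib cocycle. -/
def tl_toCocycles₁ : lvZ1 L (tl_Act A) →+ ↥(cocycles₁ A) where
  toFun c := ⟨c.1, (tl_mem_cocycles₁_iff A c.1).2 c.2.1⟩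
  map_zero' := rfl
  map_add' _ _ := rfl

/-- The comparison map from level `H¹` to Mathlib's `H1`. -/
noncomputable def tl_H1_hom : lvH1 L (tl_Act A) →+ H1 A :=
  QuotientAddGroup.lift _ (((H1π A).hom : ↥(cocycles₁ A) →ₗ[k] H1 A).toAddMonoidHom.comp
    (tl_toCocycles₁ L A)) (by
    rintro c hc
    rw [AddSubgroup.mem_addSubgroupOf] at hc
    obtain ⟨x, hx⟩ := hc
    show (H1π A).hom (tl_toCocycles₁ L A c) = 0
    rw [H1π_eq_zero_iff]
    exact ⟨x, hx⟩)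

theorem tl_H1_hom_mk (c : lvZ1 L (tl_Act A)) :
    tl_H1_hom L A (lvH1mk L (tl_Act A) c) = (H1π A).hom (tl_toCocycles₁ L A c) := rfl

theorem tl_H1_hom_injective : Function.Injective (tl_H1_hom L A) := by
  rw [injective_iff_map_eq_zero]
  intro y hy
  obtain ⟨c, rfl⟩ := lvH1mk_surjective y
  rw [tl_H1_hom_mk, H1π_eq_zero_iff] at hy
  obtain ⟨x, hx⟩ := hy
  rw [lvH1mk_eq_zero_iff]
  exact ⟨x, hx⟩

end General

section Global

variable (S : Finset Nat.Primes) {k : Type} [Field k] (A : Rep.{0} k GQ)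

theorem tl_range_H1_hom (x : H1 A) :
    x ∈ continuousH1S S A ↔ ∃ y, tl_H1_hom (tl_levelsS S) A y = x := by
  rw [mem_continuousH1S_iff]
  constructor
  · rintro ⟨c, hc, rfl⟩
    refine ⟨lvH1mk _ _ ⟨c.1, (tl_mem_cocycles₁_iff A c.1).1 c.2,
      (tl_isLevelConstantS₁_iff S _).1 hc⟩, ?_⟩
    rw [tl_H1_hom_mk]
    rfl
  · rintro ⟨y, rfl⟩
    obtain ⟨c, rfl⟩ := lvH1mk_surjective y
    exact ⟨tl_toCocycles₁ _ A c, (tl_isLevelConstantS₁_iff S _).2 c.2.2, (tl_H1_hom_mk _ A c).symm⟩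

variable {H : Type} [Group H] (r : H →* GQ)

/-- On classes with level-constant cocycles, the abstract localisation (Mathlib `map`) vanishes
iff the level localisation vanishes. -/
theorem tl_map_H1_hom_eq_zero_iff (y : lvH1 (tl_levelsS S) (tl_Act A)) :
    (groupCohomology.map r (𝟙 (Rep.res r A)) 1).hom (tl_H1_hom (tl_levelsS S) A y) = 0 ↔
      (tl_locMor S r A).H1 y = 0 := by
  obtain ⟨c, rfl⟩ := lvH1mk_surjective y
  rw [tl_H1_hom_mk, H1π_comp_map_apply, H1π_eq_zero_iff, LvMor.H1_mk, lvH1mk_eq_zero_iff]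
  constructor
  · rintro ⟨x, hx⟩
    exact ⟨x, hx⟩
  · rintro ⟨x, hx⟩
    exact ⟨x, hx⟩

end Global

section Sha1

variable {p : ℕ} [Fact p.Prime] (S : Finset Nat.Primes) (A : Rep.{0} (ZMod p) GQ)

/-- `Ш¹_S(A)` in level cohomology. -/
noncomputable def tl_lvSha1 : AddSubgroup (lvH1 (tl_levelsS S) (tl_Act A)) :=
  ⨅ q : ↥S, ((tl_locMor S (primeLocalToGlobal q.1) A).H1).ker

theorem tl_mem_lvSha1 (y : lvH1 (tl_levelsS S) (tl_Act A)) :
    y ∈ tl_lvSha1 S A ↔ ∀ q : ↥S, (tl_locMor S (primeLocalToGlobal q.1) A).H1 y = 0 := by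
  simp only [tl_lvSha1, AddSubgroup.mem_iInf, AddMonoidHom.mem_ker]

theorem tl_H1_hom_mem_sha₁_iff (hp2 : p ≠ 2) (y : lvH1 (tl_levelsS S) (tl_Act A)) :
    tl_H1_hom (tl_levelsS S) A y ∈ sha₁ S A ↔ y ∈ tl_lvSha1 S A := by
  rw [tl_mem_sha₁_iff hp2, tl_mem_lvSha1]
  constructor
  · rintro ⟨-, h⟩ q
    exact (tl_map_H1_hom_eq_zero_iff S A (primeLocalToGlobal q.1) y).1 (h q)
  · intro h
    exact ⟨(tl_range_H1_hom S A _).2 ⟨y, rfl⟩,
      fun q => (tl_map_H1_hom_eq_zero_iff S A (primeLocalToGlobal q.1) y).2 (h q)⟩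

/-- **`tl_lvSha1 S A ≃+ sha₁ S A`.** -/
noncomputable def tl_sha₁_equiv (hp2 : p ≠ 2) : ↥(tl_lvSha1 S A) ≃+ ↥(sha₁ S A) :=
  AddEquiv.ofBijective
    ({ toFun := fun y => ⟨tl_H1_hom (tl_levelsS S) A y.1,
        (tl_H1_hom_mem_sha₁_iff S A hp2 y.1).2 y.2⟩
       map_zero' := Subtype.ext (map_zero _)
       map_add' := fun y y' => Subtype.ext (map_add (tl_H1_hom (tl_levelsS S) A) y.1 y'.1) } :
      ↥(tl_lvSha1 S A) →+ ↥(sha₁ S A))
    ⟨fun y y' h => Subtype.ext (tl_H1_hom_injective _ A (congrArg Subtype.val h)),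
     fun x => by
      obtain ⟨y, hy⟩ := (tl_range_H1_hom S A x.1).1 ((tl_mem_sha₁_iff hp2 S A x.1).1 x.2).1
      refine ⟨⟨y, (tl_H1_hom_mem_sha₁_iff S A hp2 y).1 (by rw [hy]; exact x.2)⟩, Subtype.ext hy⟩⟩

end Sha1

end Fermat.Agent.S55
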