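import Fermat.Agent.S55.Level.ShaFinite
import Fermat.Agent.S55.Trans.H1Bridge

/-!
# S55 wiring (D-SH1): `Ш¹` and the finite levels `Gal(L/ℚ)`

* `tl_sf_quot`: `Gal(L/ℚ)` (with `q = AlgEquiv.restrictNormalHom L`) as a finite quotient
  (`LvQuot`) of `G_ℚ` for the level system `tl_levelsS S`, for any model `Y` of the `Fix L`-fixed
  points of a `G_ℚ`-module `X`;
* `tl_sf_locHom r L`, `tl_sf_D r L`: the image of a local group in `Gal(L/ℚ)`, and
  `tl_sf_locQuot`: it is a finite quotient of the local group for `tl_levelsVia r`;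
* for a finite module `A` on which `Fix L` acts trivially (`B : Rep ℤ Gal(L/ℚ)` on the same
  additive group): `tl_sf_infl : ds_sha D B 1 →+ tl_lvSha1 S A`, injective, compatible with
  inflation, jointly surjective.
-/

set_option autoImplicit false

open groupCohomology ExtCitation CategoryTheory

namespace Fermat.Agent.S55

local notation "GQ" => (AlgebraicClosure ℚ ≃ₐ[ℚ] AlgebraicClosure ℚ)

section Global

variable (S : Finset Nat.Primes) (L : IntermediateField ℚ (AlgebraicClosure ℚ)) [Normal ℚ L]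
  (hL : L.IsUnramifiedOutside S)
  {X : Type*} [AddCommGroup X] [DistribMulAction GQ X]
  {Y : Type*} [AddCommGroup Y] [DistribMulAction (L ≃ₐ[ℚ] L) Y]
  (φ : Y →+ X) (hφi : Function.Injective φ)
  (hφe : ∀ (σ : GQ) (y : Y), φ (AlgEquiv.restrictNormalHom L σ • y) = σ • φ y)
  (hφr : ∀ x : X, (∀ σ ∈ L.fixingSubgroup, σ • x = x) → ∃ y, φ y = x)

/-- `Gal(L/ℚ)` as a finite quotient of `G_ℚ` for the level system of `S`. -/
noncomputable def tl_sf_quot : LvQuot (tl_levelsS S) X (L ≃ₐ[ℚ] L) Y where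
  q := AlgEquiv.restrictNormalHom L
  q_surj := tl_restrictNormalHom_surjective L
  level := ⟨L.fixingSubgroup, ⟨L, hL, rfl⟩, (tl_ker_restrictNormalHom L).ge⟩
  φ := φ
  φ_inj := hφi
  equivariant := hφe
  range_eq := fun x hx => hφr x (fun σ hσ => hx σ (by rw [tl_ker_restrictNormalHom]; exact hσ))

@[simp] lemma tl_sf_quot_q :
    (tl_sf_quot S L hL φ hφi hφe hφr).q = AlgEquiv.restrictNormalHom L := rfl

@[simp] lemma tl_sf_quot_φ : (tl_sf_quot S L hL φ hφi hφe hφr).φ = φ := rfl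

lemma tl_sf_quot_ker : (tl_sf_quot S L hL φ hφi hφe hφr).q.ker = L.fixingSubgroup :=
  tl_ker_restrictNormalHom L

end Global

section Local

variable {H : Type*} [Group H] (r : H →* GQ)
  (L : IntermediateField ℚ (AlgebraicClosure ℚ)) [Normal ℚ L]

/-- The map from a local group to `Gal(L/ℚ)`. -/
noncomputable def tl_sf_locHom : H →* (L ≃ₐ[ℚ] L) := (AlgEquiv.restrictNormalHom L).comp r

/-- The image of a local group in `Gal(L/ℚ)` (the decomposition group). -/
noncomputable def tl_sf_D : Subgroup (L ≃ₐ[ℚ] L) := (tl_sf_locHom r L).range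

lemma tl_sf_locHom_apply (h : H) : tl_sf_locHom r L h = AlgEquiv.restrictNormalHom L (r h) := rfl

/-- The surjection of the local group onto its image in `Gal(L/ℚ)`. -/
noncomputable def tl_sf_locQ : H →* tl_sf_D r L := (tl_sf_locHom r L).rangeRestrict

lemma tl_sf_locQ_coe (h : H) :
    ((tl_sf_locQ r L h : tl_sf_D r L) : L ≃ₐ[ℚ] L) = AlgEquiv.restrictNormalHom L (r h) := rfl

lemma tl_sf_locQ_surjective : Function.Surjective (tl_sf_locQ r L) :=
  (tl_sf_locHom r L).rangeRestrict_surjective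

lemma tl_sf_mem_ker_locQ (h : H) : h ∈ (tl_sf_locQ r L).ker ↔ r h ∈ L.fixingSubgroup := by
  rw [MonoidHom.mem_ker, ← tl_ker_restrictNormalHom, MonoidHom.mem_ker, Subtype.ext_iff]
  rfl

variable [FiniteDimensional ℚ L]
  {X₁ : Type*} [AddCommGroup X₁] [DistribMulAction H X₁]
  {Y₁ : Type*} [AddCommGroup Y₁] [DistribMulAction (tl_sf_D r L) Y₁]
  (φ₁ : Y₁ →+ X₁) (hφi : Function.Injective φ₁)
  (hφe : ∀ (h : H) (y : Y₁), φ₁ (tl_sf_locQ r L h • y) = h • φ₁ y)
  (hφr : ∀ x : X₁, (∀ h : H, r h ∈ L.fixingSubgroup → h • x = x) → ∃ y, φ₁ y = x)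

/-- The image of the local group in `Gal(L/ℚ)` as a finite quotient of the local group for the
frozen local level system. -/
noncomputable def tl_sf_locQuot : LvQuot (tl_levelsVia r) X₁ (tl_sf_D r L) Y₁ where
  q := tl_sf_locQ r L
  q_surj := tl_sf_locQ_surjective r L
  level := ⟨L.fixingSubgroup.comap r, ⟨L.fixingSubgroup, ⟨L, inferInstance, rfl⟩, rfl⟩,
    fun h hh => (tl_sf_mem_ker_locQ r L h).2 hh⟩
  φ := φ₁
  φ_inj := hφi
  equivariant := hφe
  range_eq := fun x hx => hφr x (fun h hh => hx h ((tl_sf_mem_ker_locQ r L h).2 hh))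

@[simp] lemma tl_sf_locQuot_q : (tl_sf_locQuot r L φ₁ hφi hφe hφr).q = tl_sf_locQ r L := rfl

@[simp] lemma tl_sf_locQuot_φ : (tl_sf_locQuot r L φ₁ hφi hφe hφr).φ = φ₁ := rfl

end Local

section ActEquiv

universe w u v

variable {k : Type u} {G : Type v} [CommRing k] [Group G] (B : Rep.{w} k G)

/-- The identity `tl_Act B ≃+ B.V`. -/
def tl_sf_actEquiv : tl_Act B ≃+ B.V where
  toFun b := b
  invFun b := b
  left_inv _ := rfl
  right_inv _ := rfl
  map_add' _ _ := rfl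

lemma tl_sf_actEquiv_smul (g : G) (b : tl_Act B) :
    tl_sf_actEquiv B (g • b) = B.ρ g (tl_sf_actEquiv B b) := rfl

end ActEquiv

section Concrete

variable (S : Finset Nat.Primes) {k : Type} [CommRing k] (A : Rep.{0} k GQ)
  (L : IntermediateField ℚ (AlgebraicClosure ℚ)) [Normal ℚ L] [FiniteDimensional ℚ L]
  (hL : L.IsUnramifiedOutside S)
  (B : Rep.{0} ℤ (L ≃ₐ[ℚ] L)) (e : B.V ≃+ A.V)
  (he : ∀ (σ : GQ) (b : B.V), e (B.ρ (AlgEquiv.restrictNormalHom L σ) b) = A.ρ σ (e b))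

/-- The global finite quotient for a module on which `Fix L` acts trivially. -/
noncomputable def tl_sf_Q : LvQuot (tl_levelsS S) (tl_Act A) (L ≃ₐ[ℚ] L) (tl_Act B) :=
  tl_sf_quot S L hL (X := tl_Act A) (Y := tl_Act B) e.toAddMonoidHom e.injective
    (fun σ y => he σ y) (fun x _ => ⟨e.symm x, e.apply_symm_apply x⟩)

/-- The local finite quotient for a module on which `Fix L` acts trivially. -/
noncomputable def tl_sf_Q₁ {H : Type} [Group H] (r : H →* GQ) :
    LvQuot (tl_levelsVia r) (tl_Act (Rep.res r A)) (tl_sf_D r L) (tl_Act B) :=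
  tl_sf_locQuot r L (X₁ := tl_Act (Rep.res r A)) (Y₁ := tl_Act B) e.toAddMonoidHom e.injective
    (fun h y => he (r h) y) (fun x _ => ⟨e.symm x, e.apply_symm_apply x⟩)

/-- Inflation `H¹(Gal(L/ℚ), B) → lvH1 (tl_levelsS S) A`. -/
noncomputable def tl_sf_inflH1 : H1 B →+ lvH1 (tl_levelsS S) (tl_Act A) :=
  (tl_sf_Q S A L hL B e he).mor.H1.comp
    (lvH1Equiv B (tl_sf_actEquiv B) (tl_sf_actEquiv_smul B)).symm.toAddMonoidHom

theorem tl_sf_inflH1_injective : Function.Injective (tl_sf_inflH1 S A L hL B e he) := by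
  intro x x' h
  have := (tl_sf_Q S A L hL B e he).H1_injective h
  exact (lvH1Equiv B (tl_sf_actEquiv B) (tl_sf_actEquiv_smul B)).symm.injective this

/-- A class of `H¹(Gal(L/ℚ), B)` is locally trivial on the decomposition groups iff its inflation is
locally trivial in level cohomology. -/
theorem tl_sf_mem_sha_iff (x : H1 B) :
    x ∈ ds_sha (fun q : ↥S => tl_sf_D (primeLocalToGlobal q.1) L) B 1 ↔
      tl_sf_inflH1 S A L hL B e he x ∈
        lvSha1 (fun q : ↥S => tl_locMor S (primeLocalToGlobal q.1) A) := by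
  obtain ⟨y, rfl⟩ :=
    (lvH1Equiv B (tl_sf_actEquiv B) (tl_sf_actEquiv_smul B)).surjective x
  rw [lvH1Equiv_mem_ds_sha_iff]
  have h1 : tl_sf_inflH1 S A L hL B e he
      (lvH1Equiv B (tl_sf_actEquiv B) (tl_sf_actEquiv_smul B) y) =
      (tl_sf_Q S A L hL B e he).mor.H1 y := by
    simp only [tl_sf_inflH1, AddMonoidHom.comp_apply, AddEquiv.coe_toAddMonoidHom,
      AddEquiv.symm_apply_apply]
  rw [h1]
  exact ((tl_sf_Q S A L hL B e he).mem_lvSha1_iff
    (fun q : ↥S => tl_locMor S (primeLocalToGlobal q.1) A)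
    (fun q : ↥S => tl_sf_Q₁ A L B e he (primeLocalToGlobal q.1))
    (fun q : ↥S => lvResMor (tl_Act B) (tl_sf_D (primeLocalToGlobal q.1) L))
    (fun _ _ => rfl) (fun _ _ => rfl) y).symm

/-- **D-SH1.**  Inflation from the finite-level `Ш¹` to the level-cohomology `Ш¹`. -/
noncomputable def tl_sf_infl :
    ds_sha (fun q : ↥S => tl_sf_D (primeLocalToGlobal q.1) L) B 1 →+
      lvSha1 (fun q : ↥S => tl_locMor S (primeLocalToGlobal q.1) A) :=
  ((tl_sf_inflH1 S A L hL B e he).comp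
    (ds_sha (fun q : ↥S => tl_sf_D (primeLocalToGlobal q.1) L) B 1).toAddSubgroup.subtype).codRestrict
    _ (fun x => (tl_sf_mem_sha_iff S A L hL B e he x.1).1 x.2)

@[simp] lemma tl_sf_infl_coe
    (x : ds_sha (fun q : ↥S => tl_sf_D (primeLocalToGlobal q.1) L) B 1) :
    ((tl_sf_infl S A L hL B e he x :
      lvSha1 (fun q : ↥S => tl_locMor S (primeLocalToGlobal q.1) A)) :
        lvH1 (tl_levelsS S) (tl_Act A)) = tl_sf_inflH1 S A L hL B e he x.1 := rfl

theorem tl_sf_infl_injective : Function.Injective (tl_sf_infl S A L hL B e he) := by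
  intro x x' h
  apply Subtype.ext
  apply tl_sf_inflH1_injective S A L hL B e he
  exact congrArg Subtype.val h

end Concrete

section Exhaust

variable (S : Finset Nat.Primes) {k : Type} [CommRing k] (A : Rep.{0} k GQ)

/-- Every class of `lvH1 (tl_levelsS S) A` is inflated from `Gal(L/ℚ)` for every sufficiently large
Galois `L` unramified outside `S`. -/
theorem tl_sf_exists_level (x : lvH1 (tl_levelsS S) (tl_Act A)) :
    ∃ F₀ : IntermediateField ℚ (AlgebraicClosure ℚ), F₀.IsUnramifiedOutside S ∧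
      ∀ (L : IntermediateField ℚ (AlgebraicClosure ℚ)) [Normal ℚ L] [FiniteDimensional ℚ L]
        (hL : L.IsUnramifiedOutside S), F₀ ≤ L →
      ∀ (B : Rep.{0} ℤ (L ≃ₐ[ℚ] L)) (e : B.V ≃+ A.V)
        (he : ∀ (σ : GQ) (b : B.V), e (B.ρ (AlgEquiv.restrictNormalHom L σ) b) = A.ρ σ (e b)),
        ∃ y : H1 B, tl_sf_inflH1 S A L hL B e he y = x := by
  obtain ⟨U₀, hU₀⟩ := (tl_levelsS S).nonempty
  obtain ⟨W, hW, -, -, h⟩ := lvH1_exists_level.{0, 0} x hU₀
  obtain ⟨F₀, hF₀, rfl⟩ := hW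
  refine ⟨F₀, hF₀, ?_⟩
  intro L _ _ hL hF₀L B e he
  have hker : (tl_sf_Q S A L hL B e he).q.ker ≤ F₀.fixingSubgroup := by
    rw [show (tl_sf_Q S A L hL B e he).q.ker = L.fixingSubgroup from tl_ker_restrictNormalHom L]
    exact IntermediateField.fixingSubgroup_antitone hF₀L
  obtain ⟨y', hy'⟩ := h (tl_sf_Q S A L hL B e he) hker
  refine ⟨lvH1Equiv B (tl_sf_actEquiv B) (tl_sf_actEquiv_smul B) y', ?_⟩
  simp only [tl_sf_inflH1, AddMonoidHom.comp_apply, AddEquiv.coe_toAddMonoidHom,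
    AddEquiv.symm_apply_apply]
  exact hy'

/-- **D-SH1, joint surjectivity.**  Every locally trivial class is the inflation of a locally
trivial class of `Gal(L/ℚ)` for every sufficiently large Galois `L` unramified outside `S`. -/
theorem tl_sf_exists_level_sha
    (x : lvSha1 (fun q : ↥S => tl_locMor S (primeLocalToGlobal q.1) A)) :
    ∃ F₀ : IntermediateField ℚ (AlgebraicClosure ℚ), F₀.IsUnramifiedOutside S ∧
      ∀ (L : IntermediateField ℚ (AlgebraicClosure ℚ)) [Normal ℚ L] [FiniteDimensional ℚ L]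
        (hL : L.IsUnramifiedOutside S), F₀ ≤ L →
      ∀ (B : Rep.{0} ℤ (L ≃ₐ[ℚ] L)) (e : B.V ≃+ A.V)
        (he : ∀ (σ : GQ) (b : B.V), e (B.ρ (AlgEquiv.restrictNormalHom L σ) b) = A.ρ σ (e b)),
        ∃ y : ds_sha (fun q : ↥S => tl_sf_D (primeLocalToGlobal q.1) L) B 1,
          tl_sf_infl S A L hL B e he y = x := by
  obtain ⟨F₀, hF₀, h⟩ := tl_sf_exists_level S A x.1
  refine ⟨F₀, hF₀, ?_⟩
  intro L _ _ hL hF₀L B e he
  obtain ⟨y, hy⟩ := h L hL hF₀L B e he
  have hy' : y ∈ ds_sha (fun q : ↥S => tl_sf_D (primeLocalToGlobal q.1) L) B 1 := by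
    rw [tl_sf_mem_sha_iff S A L hL B e he, hy]
    exact x.2
  exact ⟨⟨y, hy'⟩, Subtype.ext hy⟩

end Exhaust

section Transition

variable (S : Finset Nat.Primes) {k : Type} [CommRing k] (A : Rep.{0} k GQ)
  (L : IntermediateField ℚ (AlgebraicClosure ℚ)) [Normal ℚ L] [FiniteDimensional ℚ L]
  (hL : L.IsUnramifiedOutside S)
  (B : Rep.{0} ℤ (L ≃ₐ[ℚ] L)) (e : B.V ≃+ A.V)
  (he : ∀ (σ : GQ) (b : B.V), e (B.ρ (AlgEquiv.restrictNormalHom L σ) b) = A.ρ σ (e b))
  (L' : IntermediateField ℚ (AlgebraicClosure ℚ)) [Normal ℚ L'] [FiniteDimensional ℚ L']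
  (hL' : L'.IsUnramifiedOutside S)
  (B' : Rep.{0} ℤ (L' ≃ₐ[ℚ] L')) (e' : B'.V ≃+ A.V)
  (he' : ∀ (σ : GQ) (b : B'.V), e' (B'.ρ (AlgEquiv.restrictNormalHom L' σ) b) = A.ρ σ (e' b))
  (π : (L' ≃ₐ[ℚ] L') →* (L ≃ₐ[ℚ] L))
  (hπ : ∀ σ : GQ, π (AlgEquiv.restrictNormalHom L' σ) = AlgEquiv.restrictNormalHom L σ)
  (ψ : Rep.res π B ⟶ B') (hψ : ∀ b : B.V, e' (ψ.hom b) = e b)

/-- The transition morphism between two finite levels. -/
noncomputable def tl_sf_transMor :
    LvMor (LevelSys.trivial (L ≃ₐ[ℚ] L)) (tl_Act B) (LevelSys.trivial (L' ≃ₐ[ℚ] L'))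
      (tl_Act B') where
  f := π
  φ :=
    { toFun := fun b => ψ.hom b
      map_zero' := map_zero ψ.hom
      map_add' := map_add ψ.hom }
  equivariant := fun g b => Rep.hom_comm_apply ψ g b
  levels := by
    rintro U rfl
    exact ⟨⊥, rfl, bot_le⟩

include hπ hψ in
/-- **D-SH1, monotonicity.**  The inflations are compatible with Mathlib's inflation between the
finite levels. -/
theorem tl_sf_inflH1_trans (x : H1 B) :
    tl_sf_inflH1 S A L' hL' B' e' he' ((groupCohomology.map π ψ 1).hom x) =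
      tl_sf_inflH1 S A L hL B e he x := by
  obtain ⟨y, rfl⟩ := (lvH1Equiv B (tl_sf_actEquiv B) (tl_sf_actEquiv_smul B)).surjective x
  have h1 := lvH1Equiv_map B B' (tl_sf_actEquiv B) (tl_sf_actEquiv_smul B)
    (tl_sf_actEquiv B') (tl_sf_actEquiv_smul B') (tl_sf_transMor L B L' B' π ψ) ψ
    (fun _ => rfl) y
  have h2 := (tl_sf_Q S A L hL B e he).H1_trans (tl_sf_Q S A L' hL' B' e' he')
    (tl_sf_transMor L B L' B' π ψ) (fun g => hπ g) (fun b => hψ b) y
  simp only [tl_sf_inflH1, AddMonoidHom.comp_apply, AddEquiv.coe_toAddMonoidHom,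
    AddEquiv.symm_apply_apply]
  rw [← h2]
  congr 1
  rw [AddEquiv.symm_apply_eq]
  exact h1.symm

end Transition

section Descend

variable {k : Type} [CommRing k] (A : Rep.{0} k GQ)
  (L : IntermediateField ℚ (AlgebraicClosure ℚ)) [Normal ℚ L]
  (hA : ∀ σ ∈ L.fixingSubgroup, ∀ a : A.V, A.ρ σ a = a)

/-- The action of `G_ℚ` on `A` by additive endomorphisms. -/
noncomputable def tl_sf_endHom : GQ →* Module.End ℤ A.V where
  toFun σ := (A.ρ σ).toAddMonoidHom.toIntLinearMap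
  map_one' := by
    ext a
    show A.ρ 1 a = a
    rw [map_one]; rfl
  map_mul' σ τ := by
    ext a
    show A.ρ (σ * τ) a = A.ρ σ (A.ρ τ a)
    rw [map_mul]; rfl

include hA in
lemma tl_sf_ker_le_endHom :
    (AlgEquiv.restrictNormalHom (F := ℚ) (K₁ := AlgebraicClosure ℚ) L).ker ≤
      (tl_sf_endHom A).ker := by
  intro σ hσ
  rw [tl_ker_restrictNormalHom] at hσ
  rw [MonoidHom.mem_ker]
  ext a
  exact hA σ hσ a

/-- The representation of `Gal(L/ℚ)` on `A` when `Fix L` acts trivially. -/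
noncomputable def tl_sf_descRho : Representation ℤ (L ≃ₐ[ℚ] L) A.V :=
  (QuotientGroup.lift _ (tl_sf_endHom A) (tl_sf_ker_le_endHom A L hA)).comp
    (QuotientGroup.quotientKerEquivOfSurjective _
      (tl_restrictNormalHom_surjective L)).symm.toMonoidHom

lemma tl_sf_descRho_apply (σ : GQ) (a : A.V) :
    tl_sf_descRho A L hA (AlgEquiv.restrictNormalHom L σ) a = A.ρ σ a := by
  have h1 : (QuotientGroup.quotientKerEquivOfSurjective _
      (tl_restrictNormalHom_surjective L)).symm (AlgEquiv.restrictNormalHom L σ)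
      = (σ : GQ ⧸ (AlgEquiv.restrictNormalHom (F := ℚ) (K₁ := AlgebraicClosure ℚ) L).ker) := by
    rw [MulEquiv.symm_apply_eq]; rfl
  simp only [tl_sf_descRho, MonoidHom.comp_apply, MulEquiv.coe_toMonoidHom, h1]
  rfl

/-- `A` as a `ℤ`-representation of `Gal(L/ℚ)`. -/
noncomputable def tl_sf_descRep : Rep.{0} ℤ (L ≃ₐ[ℚ] L) := Rep.of (tl_sf_descRho A L hA)

/-- The underlying additive group of `tl_sf_descRep` is `A`. -/
noncomputable def tl_sf_descE : (tl_sf_descRep A L hA).V ≃+ A.V := AddEquiv.refl A.V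

lemma tl_sf_descE_apply (σ : GQ) (b : (tl_sf_descRep A L hA).V) :
    tl_sf_descE A L hA ((tl_sf_descRep A L hA).ρ (AlgEquiv.restrictNormalHom L σ) b) =
      A.ρ σ (tl_sf_descE A L hA b) :=
  tl_sf_descRho_apply A L hA σ b

end Descend

section ZModP

variable {p : ℕ} [Fact p.Prime] (S : Finset Nat.Primes) (A : Rep.{0} (ZMod p) GQ)

/-- The target of `tl_sf_infl` is helper22's `tl_lvSha1`. -/
lemma tl_sf_lvSha1_eq :
    lvSha1 (fun q : ↥S => tl_locMor S (primeLocalToGlobal q.1) A) = tl_lvSha1 S A := rfl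

end ZModP

end Fermat.Agent.S55
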