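import Fermat.Agent.S55.Trans.H1Bridge
import Fermat.Agent.S55.PairingOfFinrank
import Fermat.Agent.S55.DualTwistHyp

/-!
# S55 wiring: smoothness of the coefficient modules and the final reduction

* the coefficient modules of S55 are smooth for the level systems `tl_levelsS S`,
  `tl_levelsVia r`;
* the conclusion of S55 follows from finiteness and equality of cardinalities of the level
  Tate–Shafarevich groups `tl_lvSha1 S (M^*(1))` and `tl_lvSha2 S M`.
-/

set_option autoImplicit false

open groupCohomology ExtCitation CategoryTheory Module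

namespace Fermat.Agent.S55

local notation "GQ" => (AlgebraicClosure ℚ ≃ₐ[ℚ] AlgebraicClosure ℚ)

section Smooth

variable {k : Type} [Field k] (M : Rep.{0} k GQ)

/-- Under the hypotheses of S55, `M` is a smooth module for the levels unramified outside `S`. -/
theorem tl_isSmooth_levelsS [FiniteDimensional k M]
    (hsm : ∀ m : M, ∃ F : IntermediateField ℚ (AlgebraicClosure ℚ), FiniteDimensional ℚ F ∧
      ∀ s ∈ F.fixingSubgroup, M.ρ s m = m)
    (S : Finset Nat.Primes)
    (hMur : ∀ q : Nat.Primes, q ∉ S → ∀ A : ValuationSubring (AlgebraicClosure ℚ),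
      A.LiesOverPrime (q : ℕ) → ∀ g ∈ A.inertiaSubgroupIn ℚ, M.ρ g = 1) :
    (tl_levelsS S).IsSmooth (tl_Act M) := by
  intro x
  refine ⟨(tl_kernelField M).fixingSubgroup,
    ⟨tl_kernelField M, tl_isUnramifiedOutside_kernelField M hsm S hMur, rfl⟩, fun u hu => ?_⟩
  show M.ρ u x = x
  rw [tl_rho_eq_one_of_mem_fixingSubgroup_kernelField M hsm hu]
  rfl

/-- A smooth representation restricted along `r` is smooth for the pulled-back levels. -/
theorem tl_isSmooth_levelsVia {H : Type} [Group H] (r : H →* GQ)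
    (hsm : ∀ m : M, ∃ F : IntermediateField ℚ (AlgebraicClosure ℚ), FiniteDimensional ℚ F ∧
      ∀ s ∈ F.fixingSubgroup, M.ρ s m = m) :
    (tl_levelsVia r).IsSmooth (tl_Act (Rep.res r M)) := by
  intro x
  obtain ⟨F, hF, h⟩ := hsm x
  exact ⟨F.fixingSubgroup.comap r, ⟨_, ⟨F, hF, rfl⟩, rfl⟩, fun u hu => h (r u) hu⟩

end Smooth

section Final

variable {p : ℕ} [Fact p.Prime]

/-- **Final reduction of S55**: finiteness and equality of cardinalities of the two level
Tate–Shafarevich groups give the nondegenerate pairing. -/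
theorem tl_result_of_card (hp2 : p ≠ 2) (S : Finset Nat.Primes) (M : Rep.{0} (ZMod p) GQ)
    (hfin1 : Finite ↥(tl_lvSha1 S (M.dualTwist (cycloChar p))))
    (hfin2 : Finite ↥(tl_lvSha2 S M))
    (hcard : Nat.card ↥(tl_lvSha1 S (M.dualTwist (cycloChar p))) = Nat.card ↥(tl_lvSha2 S M)) :
    ∃ B : sha₁ S (M.dualTwist (cycloChar p)) →ₗ[ZMod p] sha₂ S M →ₗ[ZMod p] ZMod p,
      (∀ y, (∀ x, B y x = 0) → y = 0) ∧ (∀ x, (∀ y, B y x = 0) → x = 0) := by
  have e1 := tl_sha₁_equiv S (M.dualTwist (cycloChar p)) hp2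
  have e2 := tl_sha₂_equiv S M hp2
  have hf1 : Finite ↥(sha₁ S (M.dualTwist (cycloChar p))) := Finite.of_equiv _ e1.toEquiv
  have hf2 : Finite ↥(sha₂ S M) := Finite.of_equiv _ e2.symm.toEquiv
  have hfd1 : FiniteDimensional (ZMod p) ↥(sha₁ S (M.dualTwist (cycloChar p))) :=
    Module.Finite.of_finite
  have hfd2 : FiniteDimensional (ZMod p) ↥(sha₂ S M) := Module.Finite.of_finite
  have hc : Nat.card ↥(sha₁ S (M.dualTwist (cycloChar p))) = Nat.card ↥(sha₂ S M) := by
    rw [← Nat.card_congr e1.toEquiv, hcard, Nat.card_congr e2.symm.toEquiv]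
  have hp : p.Prime := Fact.out
  apply pt_exists_pairing_of_finrank_eq
  have h1 := Module.natCard_eq_pow_finrank (K := ZMod p)
    (V := ↥(sha₁ S (M.dualTwist (cycloChar p))))
  have h2 := Module.natCard_eq_pow_finrank (K := ZMod p) (V := ↥(sha₂ S M))
  rw [h1, h2, Nat.card_zmod] at hc
  exact Nat.pow_right_injective hp.two_le hc

end Final

end Fermat.Agent.S55
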