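import Fermat.Agent.S55.Trans.Levels
import Fermat.Agent.S55.Archimedean

/-!
# S55 wiring (T3): the frozen `continuousH2S`, `continuousH2` are level cohomology groups

* `tl_H2S_equiv S M : continuousH2S S M ≃+ lvH2 (tl_levelsS S) (tl_Act M)`;
* `tl_H2via_equiv r N : continuousH2 r N ≃+ lvH2 (tl_levelsVia r) (tl_Act N)`;
* the frozen localisation `locRes₂S` corresponds to the `LvMor`-map of block [F];
* `sha₂` is the common kernel of the level localisation maps at the primes of `S`.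
-/

set_option autoImplicit false

open groupCohomology ExtCitation CategoryTheory

namespace Fermat.Agent.S55

local notation "GQ" => (AlgebraicClosure ℚ ≃ₐ[ℚ] AlgebraicClosure ℚ)

section Generic

variable {k V : Type*} [CommRing k] [AddCommGroup V] [Module k V]

/-- A quotient of submodules and the quotient of the additive subgroups with the same elements
are isomorphic additive groups. -/
noncomputable def tl_quotEquiv (Zs Bs : Submodule k V) (Z B : AddSubgroup V)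
    (hZ : ∀ f, f ∈ Zs ↔ f ∈ Z) (hB : ∀ f, f ∈ Bs ↔ f ∈ B) :
    (↥Zs ⧸ Bs.comap Zs.subtype) ≃+ (↥Z ⧸ B.addSubgroupOf Z) :=
  let e : ↥Zs ≃+ ↥Z :=
    { toFun := fun f => ⟨f.1, (hZ _).1 f.2⟩
      invFun := fun f => ⟨f.1, (hZ _).2 f.2⟩
      left_inv := fun _ => rfl
      right_inv := fun _ => rfl
      map_add' := fun _ _ => rfl }
  QuotientAddGroup.congr (Bs.comap Zs.subtype).toAddSubgroup (B.addSubgroupOf Z) e (by
    ext f
    constructor
    · rintro ⟨g, hg, rfl⟩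
      exact (hB _).1 hg
    · intro hf
      exact ⟨⟨f.1, (hZ _).2 f.2⟩, (hB _).2 hf, rfl⟩)

theorem tl_quotEquiv_mk (Zs Bs : Submodule k V) (Z B : AddSubgroup V)
    (hZ : ∀ f, f ∈ Zs ↔ f ∈ Z) (hB : ∀ f, f ∈ Bs ↔ f ∈ B) (f : ↥Zs) :
    tl_quotEquiv Zs Bs Z B hZ hB (Submodule.Quotient.mk f) =
      QuotientAddGroup.mk' _ ⟨f.1, (hZ _).1 f.2⟩ := rfl

end Generic

section Global

variable (S : Finset Nat.Primes) {k : Type} [CommRing k] (M : Rep.{0} k GQ)

theorem tl_mem_levelCocyclesS₂_iff (f : GQ × GQ → M) :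
    f ∈ levelCocyclesS₂ S M ↔ f ∈ lvZ2 (tl_levelsS S) (tl_Act M) := by
  rw [mem_levelCocyclesS₂_iff, mem_cocycles₂_iff, tl_isLevelConstantS₂_iff]
  exact Iff.rfl

theorem tl_mem_levelCoboundariesS₂_iff (f : GQ × GQ → M) :
    f ∈ levelCoboundariesS₂ S M ↔ f ∈ lvB2 (tl_levelsS S) (tl_Act M) := by
  rw [mem_levelCoboundariesS₂_iff]
  constructor
  · rintro ⟨x, hx, rfl⟩
    exact mem_lvB2.2 ⟨x, (tl_isLevelConstantS₁_iff S x).1 hx, rfl⟩
  · intro h
    obtain ⟨x, hx, hxf⟩ := mem_lvB2.1 h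
    exact ⟨x, (tl_isLevelConstantS₁_iff S x).2 hx, hxf⟩

/-- **The frozen `H²(G_S, M)` is the level cohomology of `tl_levelsS S`.** -/
noncomputable def tl_H2S_equiv : continuousH2S S M ≃+ lvH2 (tl_levelsS S) (tl_Act M) :=
  tl_quotEquiv (levelCocyclesS₂ S M) (levelCoboundariesS₂ S M)
    (lvZ2 (tl_levelsS S) (tl_Act M)) (lvB2 (tl_levelsS S) (tl_Act M))
    (tl_mem_levelCocyclesS₂_iff S M) (tl_mem_levelCoboundariesS₂_iff S M)

theorem tl_H2S_equiv_mk (f : ↥(levelCocyclesS₂ S M)) :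
    tl_H2S_equiv S M (continuousH2Sπ S M f) =
      lvH2mk (tl_levelsS S) (tl_Act M) ⟨f.1, (tl_mem_levelCocyclesS₂_iff S M _).1 f.2⟩ := rfl

end Global

section Via

variable {k : Type} [CommRing k] {H : Type} [Group H] (r : H →* GQ) (N : Rep.{0} k H)

theorem tl_mem_levelCocycles₂_iff (f : H × H → N) :
    f ∈ levelCocycles₂ r N ↔ f ∈ lvZ2 (tl_levelsVia r) (tl_Act N) := by
  rw [mem_levelCocycles₂_iff, mem_cocycles₂_iff, tl_isLevelConstant₂_iff]
  exact Iff.rfl

theorem tl_mem_levelCoboundaries₂_iff (f : H × H → N) :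
    f ∈ levelCoboundaries₂ r N ↔ f ∈ lvB2 (tl_levelsVia r) (tl_Act N) := by
  rw [mem_levelCoboundaries₂_iff]
  constructor
  · rintro ⟨x, hx, rfl⟩
    exact mem_lvB2.2 ⟨x, (tl_isLevelConstant₁_iff r x).1 hx, rfl⟩
  · intro h
    obtain ⟨x, hx, hxf⟩ := mem_lvB2.1 h
    exact ⟨x, (tl_isLevelConstant₁_iff r x).2 hx, hxf⟩

/-- **The frozen local `H²` is the level cohomology of the pulled-back level system.** -/
noncomputable def tl_H2via_equiv : continuousH2 r N ≃+ lvH2 (tl_levelsVia r) (tl_Act N) :=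
  tl_quotEquiv (levelCocycles₂ r N) (levelCoboundaries₂ r N)
    (lvZ2 (tl_levelsVia r) (tl_Act N)) (lvB2 (tl_levelsVia r) (tl_Act N))
    (tl_mem_levelCocycles₂_iff r N) (tl_mem_levelCoboundaries₂_iff r N)

theorem tl_H2via_equiv_mk (f : ↥(levelCocycles₂ r N)) :
    tl_H2via_equiv r N (continuousH2π r N f) =
      lvH2mk (tl_levelsVia r) (tl_Act N) ⟨f.1, (tl_mem_levelCocycles₂_iff r N _).1 f.2⟩ := rfl

end Via

end Fermat.Agent.S55

namespace Fermat.Agent.S55

local notation "GQ" => (AlgebraicClosure ℚ ≃ₐ[ℚ] AlgebraicClosure ℚ)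

section Localisation

variable (S : Finset Nat.Primes) {k : Type} [CommRing k] {H : Type} [Group H] (r : H →* GQ)
  (M : Rep.{0} k GQ)

/-- The localisation morphism `(G_ℚ, levels S, M) → (H, levels via r, res M)` of block [F]. -/
noncomputable def tl_locMor :
    LvMor (tl_levelsS S) (tl_Act M) (tl_levelsVia r) (tl_Act (Rep.res r M)) where
  f := r
  φ := AddMonoidHom.id M
  equivariant := fun _ _ => rfl
  levels := fun U hU => ⟨U.comap r, ⟨U, tl_levelsS_le_levelsAll hU, rfl⟩, le_rfl⟩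

/-- The frozen localisation map `locRes₂S` is the level localisation map. -/
theorem tl_H2via_equiv_locRes₂S (x : continuousH2S S M) :
    tl_H2via_equiv r (Rep.res r M) (locRes₂S S M r x) =
      (tl_locMor S r M).H2 (tl_H2S_equiv S M x) := by
  obtain ⟨c, rfl⟩ := Submodule.Quotient.mk_surjective _ x
  rfl

end Localisation

section Sha2

variable {p : ℕ} [Fact p.Prime] (S : Finset Nat.Primes) (M : Rep.{0} (ZMod p) GQ)

/-- `Ш²_S(M)` in level cohomology: classes dying in the level cohomology of every local group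
at the primes of `S`. -/
noncomputable def tl_lvSha2 : AddSubgroup (lvH2 (tl_levelsS S) (tl_Act M)) :=
  ⨅ q : ↥S, ((tl_locMor S (primeLocalToGlobal q.1) M).H2).ker

theorem tl_mem_lvSha2 (y : lvH2 (tl_levelsS S) (tl_Act M)) :
    y ∈ tl_lvSha2 S M ↔ ∀ q : ↥S, (tl_locMor S (primeLocalToGlobal q.1) M).H2 y = 0 := by
  simp only [tl_lvSha2, AddSubgroup.mem_iInf, AddMonoidHom.mem_ker]

/-- The frozen `sha₂` corresponds to `tl_lvSha2` under `tl_H2S_equiv`. -/
theorem tl_mem_sha₂_iff_lv (hp2 : p ≠ 2) (x : continuousH2S S M) :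
    x ∈ sha₂ S M ↔ tl_H2S_equiv S M x ∈ tl_lvSha2 S M := by
  rw [tl_mem_sha₂_iff hp2, tl_mem_lvSha2]
  refine forall_congr' fun q => ?_
  rw [← tl_H2via_equiv_locRes₂S, AddEquiv.map_eq_zero_iff]

/-- **`sha₂ S M ≃+ tl_lvSha2 S M`.** -/
noncomputable def tl_sha₂_equiv (hp2 : p ≠ 2) : ↥(sha₂ S M) ≃+ ↥(tl_lvSha2 S M) where
  toFun x := ⟨tl_H2S_equiv S M x.1, (tl_mem_sha₂_iff_lv S M hp2 x.1).1 x.2⟩
  invFun y := ⟨(tl_H2S_equiv S M).symm y.1, (tl_mem_sha₂_iff_lv S M hp2 _).2 (by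
    rw [AddEquiv.apply_symm_apply]; exact y.2)⟩
  left_inv x := Subtype.ext ((tl_H2S_equiv S M).symm_apply_apply x.1)
  right_inv y := Subtype.ext ((tl_H2S_equiv S M).apply_symm_apply y.1)
  map_add' x y := Subtype.ext (map_add (tl_H2S_equiv S M) x.1 y.1)

end Sha2

end Fermat.Agent.S55
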