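import Fermat.Agent.S55.DualTwistHyp
import Fermat.Agent.S55.Kummer.Unram

/-!
# S55 wiring: the base level field `K₀`

Under the hypotheses of S55 there is a level field `K₀` (finite over `ℚ`, unramified outside `S`,
normal) whose fixing subgroup acts trivially on `M`, on the `p`-th roots of unity (so
`cycloChar p` is trivial on it) and hence on `M.dualTwist (cycloChar p)`.
-/

set_option autoImplicit false

open CategoryTheory ExtCitation

namespace Fermat.Agent.S55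

local notation "GQ" => (AlgebraicClosure ℚ ≃ₐ[ℚ] AlgebraicClosure ℚ)
local notation "Qbar" => AlgebraicClosure ℚ

variable {p : ℕ} [Fact p.Prime]

/-- An automorphism fixing all `p`-th roots of unity has trivial cyclotomic character. -/
theorem tl_cycloChar_eq_one_of_fixes (s : GQ) (h : ∀ ζ : Qbar, ζ ^ p = 1 → s ζ = ζ) :
    cycloChar p s = 1 := by
  have hp : p.Prime := Fact.out
  have : NeZero p := ⟨hp.ne_zero⟩
  obtain ⟨ζ, hζ⟩ := HasEnoughRootsOfUnity.exists_primitiveRoot Qbar p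
  have hchi : Fermat.Agent.S14.Reduction.chi p s = 1 :=
    (Fermat.Agent.S14.Reduction.chi_eq_one_iff p s hζ).2 (h ζ hζ.pow_eq_one)
  apply Units.ext
  rw [coe_cycloChar]
  exact hchi

/-- **The base level field `K₀`.** -/
theorem tl_exists_K0 (S : Finset Nat.Primes) (hpS : pPrime p ∈ S)
    (M : Rep.{0} (ZMod p) GQ) [FiniteDimensional (ZMod p) M]
    (hsm : ∀ m : M, ∃ F : IntermediateField ℚ Qbar, FiniteDimensional ℚ F ∧
      ∀ s ∈ F.fixingSubgroup, M.ρ s m = m)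
    (hMur : ∀ q : Nat.Primes, q ∉ S → ∀ A : ValuationSubring Qbar,
      A.LiesOverPrime (q : ℕ) → ∀ g ∈ A.inertiaSubgroupIn ℚ, M.ρ g = 1) :
    ∃ K₀ : IntermediateField ℚ Qbar, K₀.IsUnramifiedOutside S ∧ Normal ℚ K₀ ∧
      FiniteDimensional ℚ K₀ ∧
      (∀ s ∈ K₀.fixingSubgroup, M.ρ s = 1) ∧
      (∀ s ∈ K₀.fixingSubgroup, cycloChar p s = 1) ∧
      (∀ s ∈ K₀.fixingSubgroup, (M.dualTwist (cycloChar p)).ρ s = 1) ∧
      (∀ ζ : Qbar, ζ ^ p = 1 → ζ ∈ K₀) := by
  obtain ⟨K₀, hle, hur, hnorm, -, hζ⟩ := ku_exists_levelField (p := pPrime p) hpS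
    (tl_isUnramifiedOutside_kernelField M hsm S hMur) 1 ∅ (by simp) (by simp)
  have hM : ∀ s ∈ K₀.fixingSubgroup, M.ρ s = 1 := fun s hs =>
    tl_rho_eq_one_of_mem_fixingSubgroup_kernelField M hsm
      (IntermediateField.fixingSubgroup_antitone hle hs)
  have hζ' : ∀ ζ : Qbar, ζ ^ p = 1 → ζ ∈ K₀ := fun ζ h => hζ ζ (by simpa using h)
  have hχ : ∀ s ∈ K₀.fixingSubgroup, cycloChar p s = 1 := fun s hs =>
    tl_cycloChar_eq_one_of_fixes s fun ζ h =>
      (IntermediateField.mem_fixingSubgroup_iff _ _).1 hs ζ (hζ' ζ h)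
  refine ⟨K₀, hur, hnorm, hur.1, hM, hχ, fun s hs => ?_, hζ'⟩
  apply LinearMap.ext
  intro f
  rw [Rep.dualTwist_ρ_apply, hχ s hs, hM s⁻¹ (inv_mem hs), Units.val_one, one_smul]
  exact LinearMap.ext fun x => rfl

end Fermat.Agent.S55
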